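/-
S48 wall (W), BLOCK H (owner helper93): formal properties of the Hecke and diamond operators on
`J₁(M)`.   EXACT STATEMENTS (definitions only, no sorry).

Inputs from the hub A1 (analytic):
* `FrickeAlgebraicOne M`  (A1d)  the Fricke functions are algebraic over the function field of
  `X₀(M)`;
* `DiamondComplexOne M`   (A1b + identity theorem)  for every `d` the substitution
  `fricke a ↦ fricke (d a)`, `j(q^e) ↦ j(q^e)` preserves the polynomial relations over `ℂ`
  (it is `f ↦ f ∘ γ`, `γ ∈ Γ₀(M)` with lower right entry `d`).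

Leaves (one file each in `S48/W/H/`, namespace `Fermat.Agent.S48W`):
* H-FF    `functionFieldOne_of : FrickeAlgebraicOne M → FunctionFieldOne M`,
          `functionFieldOneP_of : FrickeAlgebraicOne M → FunctionFieldOneP M p`      FF.lean
* H-INP   `heckeInputsOne_of : FunctionFieldOne M → FunctionFieldOneP M p → HeckeInputsOne M p`
                                                                                     Inputs.lean
* H-DIAM  `diamondExistsOne_of : DiamondComplexOne M → DiamondExistsOne M`           Diamond.lean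
* IF-H1   `heckeGaloisCommOne M : HeckeGaloisCommOne M`  (unconditional)             GaloisComm.lean
* IF-H2   `diamondActionOne_of : DiamondExistsOne M → (∀ p, HeckeInputsOne M p) →
             DiamondActionOne M`                                                     Action.lean
-/
import Mathlib
import Fermat.Agent.S48.W.Interfaces
import Fermat.Agent.S24.FFDefs

set_option autoImplicit false

noncomputable section

namespace Fermat.Agent.S48W

open ModularCurve AlgebraicCurve IntermediateField

local notation "Kb" => AlgebraicClosure ℚ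

/-- `j ∈ F₁(M)`. -/
theorem jq_mem_FOne (M : ℕ) [NeZero M] : jq ∈ FOne M := by
  have h := jqd_mem_full M (one_dvd M)
  rw [qExpand_one_apply] at h
  exact full_le_FOne M h

/-- `j` as an element of `ℚ̄ F₁(M)`. -/
def jOneBar (M : ℕ) [NeZero M] : FOneBar M :=
  ⟨coeffEmb Kb jq, coeffEmb_mem_laurentBaseChange Kb (jq_mem_FOne M)⟩

/-- `j` as an element of `ℚ̄ F(Γ₁(M) ∩ Γ₀(p))`. -/
def jOnePBar (M p : ℕ) [NeZero M] [NeZero p] : laurentBaseChange Kb (FOneP M p) :=
  ⟨coeffEmb Kb jq, coeffEmb_mem_laurentBaseChange Kb (FOne_le_FOneP M p (jq_mem_FOne M))⟩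

/-- **(A1d)** the Fricke functions are algebraic over the function field of `X₀(M)`. -/
def FrickeAlgebraicOne (M : ℕ) [NeZero M] : Prop :=
  ∀ a : ZMod M, a ≠ 0 → IsAlgebraic (modularFunctionFieldFull M) (fricke M a)

/-- **(H-FF)** `ℚ̄ F₁(M)` is a function field in one variable over `ℚ̄`. -/
def FunctionFieldOne (M : ℕ) [NeZero M] : Prop :=
  Fermat.Agent.S24Diff.IsFunctionFieldOver Kb (FOneBar M) (jOneBar M)

/-- **(H-FF)** `ℚ̄ F(Γ₁(M) ∩ Γ₀(p))` is a function field in one variable over `ℚ̄`. -/
def FunctionFieldOneP (M p : ℕ) [NeZero M] [NeZero p] : Prop :=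
  Fermat.Agent.S24Diff.IsFunctionFieldOver Kb (laurentBaseChange Kb (FOneP M p)) (jOnePBar M p)

/-- **(A1b)** the diamond substitution over `ℂ`: for every `d` there is a homomorphism of
`ℂ`-algebras on the algebra generated by the `q`-expansions of the generators which fixes the
`j(q^e)` (`e ∣ M`) and maps the Fricke function of `a` to the Fricke function of `d a`. -/
def DiamondComplexOne (M : ℕ) [NeZero M] : Prop :=
  ∀ d : (ZMod M)ˣ,
    ∃ φ : Algebra.adjoin ℂ (⇑(coeffEmb ℂ) '' genOne M) →ₐ[ℂ] LaurentSeries ℂ,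
      (∀ x ∈ divisorExpansions M, ∀ hx : coeffEmb ℂ x ∈ Algebra.adjoin ℂ (⇑(coeffEmb ℂ) '' genOne M),
        φ ⟨coeffEmb ℂ x, hx⟩ = coeffEmb ℂ x) ∧
      ∀ a : ZMod M, a ≠ 0 →
        ∀ hx : coeffEmb ℂ (fricke M a) ∈ Algebra.adjoin ℂ (⇑(coeffEmb ℂ) '' genOne M),
          φ ⟨coeffEmb ℂ (fricke M a), hx⟩ = coeffEmb ℂ (fricke M ((d : ZMod M) * a))

/-- **(H-DIAM)** the diamond automorphisms of `ℚ̄ F₁(M)` exist. -/
def DiamondExistsOne (M : ℕ) [NeZero M] : Prop :=
  ∀ d : (ZMod M)ˣ, ∃ σ : FOneBar M ≃ₐ[Kb] FOneBar M, IsDiamond M d σ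

end Fermat.Agent.S48W
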