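/-
S48 wall (W), BLOCK H, seat H-DIAM (helper83):
`diamondExistsOne_of : DiamondComplexOne M → DiamondExistsOne M`.

The diamond substitution `fricke a ↦ fricke (d a)`, `j(q^e) ↦ j(q^e)` preserves the polynomial
relations over `ℂ` (hypothesis), hence over `ℚ̄` (coefficients embed into `ℂ`), hence defines an
automorphism of the `ℚ̄`-algebra generated by the generators, hence of its fraction field
`ℚ̄ F₁(M)`.
-/
import Mathlib
import Fermat.Agent.S48.W.H.Defs

set_option autoImplicit false

noncomputable section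

namespace Fermat.Agent.S48W

open ModularCurve AlgebraicCurve IntermediateField

local notation "Kb" => AlgebraicClosure ℚ

/-! ### generic: coefficient maps and polynomial evaluation -/

theorem hdiam_coeffMap_algebraMap {K L : Type*} [Field K] [Field L] (ι : K →+* L) (c : K) :
    coeffMap ι (algebraMap K (LaurentSeries K) c) = algebraMap L (LaurentSeries L) (ι c) := by
  rw [algebraMap_laurentSeries_eq_single, algebraMap_laurentSeries_eq_single, coeffMap_single]

theorem hdiam_coeffMap_aeval {K L : Type*} [Field K] [Field L] (ι : K →+* L) {I : Type*}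
    (v : I → LaurentSeries K) (P : MvPolynomial I K) :
    coeffMap ι (MvPolynomial.aeval v P)
      = MvPolynomial.aeval (fun i => coeffMap ι (v i)) (MvPolynomial.map ι P) := by
  induction P using MvPolynomial.induction_on with
  | C a =>
      rw [MvPolynomial.aeval_C, MvPolynomial.map_C, MvPolynomial.aeval_C,
        hdiam_coeffMap_algebraMap]
  | add p q hp hq => rw [map_add, map_add, hp, hq, map_add, map_add]
  | mul_X p i hp =>
      rw [map_mul, map_mul, hp, map_mul, map_mul, MvPolynomial.aeval_X, MvPolynomial.map_X,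
        MvPolynomial.aeval_X]

theorem hdiam_coeffMap_coeffEmb {K L : Type*} [Field K] [Field L] [Algebra ℚ K] [Algebra ℚ L]
    (ι : K →+* L) (x : LaurentSeries ℚ) : coeffMap ι (coeffEmb K x) = coeffEmb L x := by
  rw [coeffEmb, coeffMap_coeffMap, coeffEmb]
  exact coeffMap_congr (Subsingleton.elim _ _) x

theorem hdiam_coeffMap_injective {K L : Type*} [Field K] [Field L] (ι : K →+* L) :
    Function.Injective (coeffMap ι) := by
  intro x y h
  ext k
  apply ι.injective
  have := congrArg (fun z => HahnSeries.coeff z k) h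
  simpa using this

/-! ### the generators and the permutation -/

variable (M : ℕ) [NeZero M]

/-- index type of the generators of `F₁(M)`. -/
abbrev DiamIdx : Type := ↥(divisorExpansions M) ⊕ {a : ZMod M // a ≠ 0}

/-- the generators of `F₁(M)`. -/
def diamGen : DiamIdx M → LaurentSeries ℚ
  | Sum.inl x => x.1
  | Sum.inr a => fricke M a.1

theorem range_diamGen : Set.range (diamGen M) = genOne M := by
  ext x
  constructor
  · rintro ⟨(y | a), rfl⟩
    · exact Or.inl y.2
    · exact Or.inr ⟨a.1, a.2, rfl⟩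
  · rintro (hx | ⟨a, ha, rfl⟩)
    · exact ⟨Sum.inl ⟨x, hx⟩, rfl⟩
    · exact ⟨Sum.inr ⟨a, ha⟩, rfl⟩

/-- the permutation of the generators induced by `d`. -/
def diamPerm (d : (ZMod M)ˣ) : DiamIdx M → DiamIdx M
  | Sum.inl x => Sum.inl x
  | Sum.inr a => Sum.inr ⟨(d : ZMod M) * a.1, fun h => a.2 ((Units.mul_right_eq_zero d).mp h)⟩

omit [NeZero M] in
theorem diamPerm_inv_apply (d : (ZMod M)ˣ) (i : DiamIdx M) :
    diamPerm M d (diamPerm M d⁻¹ i) = i := by
  rcases i with x | a
  · rfl
  · simp only [diamPerm]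
    congr 1
    apply Subtype.ext
    simp

variable (L : Type*) [Field L] [Algebra ℚ L]

/-- the generators over `L`. -/
def diamGenL (i : DiamIdx M) : LaurentSeries L := coeffEmb L (diamGen M i)

theorem range_diamGenL : Set.range (diamGenL M L) = ⇑(coeffEmb L) '' genOne M := by
  rw [← range_diamGen, ← Set.range_comp]
  rfl

/-- the algebra generated by the generators over `L`. -/
abbrev diamAlg : Subalgebra L (LaurentSeries L) := Algebra.adjoin L (⇑(coeffEmb L) '' genOne M)

theorem diamGenL_mem (i : DiamIdx M) : diamGenL M L i ∈ diamAlg M L :=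
  Algebra.subset_adjoin (by rw [← range_diamGenL]; exact ⟨i, rfl⟩)

theorem aeval_diamGenL_mem (π : DiamIdx M → DiamIdx M) (P : MvPolynomial (DiamIdx M) L) :
    MvPolynomial.aeval (fun i => diamGenL M L (π i)) P ∈ diamAlg M L := by
  have h : (MvPolynomial.aeval (fun i => diamGenL M L (π i)) P)
      ∈ (MvPolynomial.aeval (R := L) (fun i => diamGenL M L (π i))).range := ⟨P, rfl⟩
  rw [← Algebra.adjoin_range_eq_range_aeval] at h
  refine Algebra.adjoin_mono ?_ h
  rintro _ ⟨i, rfl⟩
  rw [← range_diamGenL]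
  exact ⟨π i, rfl⟩

/-- evaluation at the permuted generators, with values in the algebra. -/
def diamEv (π : DiamIdx M → DiamIdx M) : MvPolynomial (DiamIdx M) L →ₐ[L] diamAlg M L :=
  (MvPolynomial.aeval (fun i => diamGenL M L (π i))).codRestrict (diamAlg M L)
    (aeval_diamGenL_mem M L π)

theorem coe_diamEv (π : DiamIdx M → DiamIdx M) (P : MvPolynomial (DiamIdx M) L) :
    ((diamEv M L π P : diamAlg M L) : LaurentSeries L)
      = MvPolynomial.aeval (fun i => diamGenL M L (π i)) P := rfl

theorem diamEv_X (π : DiamIdx M → DiamIdx M) (i : DiamIdx M) :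
    diamEv M L π (MvPolynomial.X i) = ⟨diamGenL M L (π i), diamGenL_mem M L (π i)⟩ :=
  Subtype.ext (by rw [coe_diamEv, MvPolynomial.aeval_X])

theorem diamEv_id_surjective : Function.Surjective (diamEv M L id) := by
  rintro ⟨x, hx⟩
  have hx' : x ∈ (MvPolynomial.aeval (R := L) (diamGenL M L)).range := by
    rw [← Algebra.adjoin_range_eq_range_aeval, range_diamGenL]
    exact hx
  obtain ⟨P, rfl⟩ := hx'
  exact ⟨P, Subtype.ext rfl⟩

/-! ### transport of the relations from `ℂ` to `ℚ̄` -/

variable {M} in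
/-- the complex hypothesis in terms of evaluations. -/
theorem diamEv_complex {d : (ZMod M)ˣ}
    {φ : Algebra.adjoin ℂ (⇑(coeffEmb ℂ) '' genOne M) →ₐ[ℂ] LaurentSeries ℂ}
    (h₁ : ∀ x ∈ divisorExpansions M,
      ∀ hx : coeffEmb ℂ x ∈ Algebra.adjoin ℂ (⇑(coeffEmb ℂ) '' genOne M),
        φ ⟨coeffEmb ℂ x, hx⟩ = coeffEmb ℂ x)
    (h₂ : ∀ a : ZMod M, a ≠ 0 →
        ∀ hx : coeffEmb ℂ (fricke M a) ∈ Algebra.adjoin ℂ (⇑(coeffEmb ℂ) '' genOne M),
          φ ⟨coeffEmb ℂ (fricke M a), hx⟩ = coeffEmb ℂ (fricke M ((d : ZMod M) * a)))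
    (P : MvPolynomial (DiamIdx M) ℂ) :
    φ (diamEv M ℂ id P) = MvPolynomial.aeval (fun i => diamGenL M ℂ (diamPerm M d i)) P := by
  have h : φ.comp (diamEv M ℂ id)
      = MvPolynomial.aeval (fun i => diamGenL M ℂ (diamPerm M d i)) := by
    apply MvPolynomial.algHom_ext
    intro i
    rw [AlgHom.comp_apply, diamEv_X, MvPolynomial.aeval_X]
    rcases i with x | a
    · exact h₁ x.1 x.2 _
    · exact h₂ a.1 a.2 _
  exact congrArg (fun f => f P) h

variable {M} in
/-- the relations between the generators over `ℚ̄` are preserved by the permutation. -/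
theorem diamEv_ker_le (hM : DiamondComplexOne M) (d : (ZMod M)ˣ)
    (P : MvPolynomial (DiamIdx M) Kb) (hP : diamEv M Kb id P = 0) :
    diamEv M Kb (diamPerm M d) P = 0 := by
  obtain ⟨φ, h₁, h₂⟩ := hM d
  have halg : Algebra.IsAlgebraic ℚ Kb := AlgebraicClosure.isAlgebraic ℚ
  let ι : Kb →+* ℂ := (IsAlgClosed.lift (R := ℚ) (S := Kb) (M := ℂ)).toRingHom
  have hι : ∀ (π : DiamIdx M → DiamIdx M) (Q : MvPolynomial (DiamIdx M) Kb),
      coeffMap ι (MvPolynomial.aeval (fun i => diamGenL M Kb (π i)) Q)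
        = MvPolynomial.aeval (fun i => diamGenL M ℂ (π i)) (MvPolynomial.map ι Q) := by
    intro π Q
    rw [hdiam_coeffMap_aeval]
    congr 2
    funext i
    exact hdiam_coeffMap_coeffEmb ι _
  have h0 : diamEv M ℂ id (MvPolynomial.map ι P) = 0 := by
    apply Subtype.ext
    rw [coe_diamEv]
    have hP' : MvPolynomial.aeval (fun i => diamGenL M Kb (id i)) P = 0 :=
      congrArg (fun z : diamAlg M Kb => (z : LaurentSeries Kb)) hP
    rw [← hι id P, hP']
    simp
  have h3 := diamEv_complex h₁ h₂ (MvPolynomial.map ι P)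
  rw [h0, map_zero] at h3
  apply Subtype.ext
  rw [coe_diamEv]
  apply hdiam_coeffMap_injective ι
  rw [hι, ← h3]
  simp

/-! ### the automorphism of the algebra -/

variable {M} in
/-- the diamond endomorphism of the algebra. -/
def diamAlgHom (hM : DiamondComplexOne M) (d : (ZMod M)ˣ) : diamAlg M Kb →ₐ[Kb] diamAlg M Kb :=
  AlgHom.liftOfSurjective (diamEv M Kb id) (diamEv_id_surjective M Kb)
    (diamEv M Kb (diamPerm M d)) (fun P hP => by
      rw [RingHom.mem_ker] at hP ⊢
      exact diamEv_ker_le hM d P hP)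

variable {M} in
theorem diamAlgHom_gen (hM : DiamondComplexOne M) (d : (ZMod M)ˣ) (i : DiamIdx M) :
    diamAlgHom hM d ⟨diamGenL M Kb i, diamGenL_mem M Kb i⟩
      = ⟨diamGenL M Kb (diamPerm M d i), diamGenL_mem M Kb _⟩ := by
  have h := AlgHom.liftOfSurjective_apply (diamEv M Kb id) (diamEv_id_surjective M Kb)
    (diamEv M Kb (diamPerm M d)) (fun P hP => by
      rw [RingHom.mem_ker] at hP ⊢
      exact diamEv_ker_le hM d P hP) (MvPolynomial.X i)
  rw [diamEv_X, diamEv_X] at h
  exact h

variable {M} in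
theorem diamAlgHom_comp_inv (hM : DiamondComplexOne M) (d : (ZMod M)ˣ) :
    (diamAlgHom hM d).comp (diamAlgHom hM d⁻¹) = AlgHom.id Kb (diamAlg M Kb) := by
  rw [← AlgHom.cancel_right (diamEv_id_surjective M Kb)]
  apply MvPolynomial.algHom_ext
  intro i
  rw [AlgHom.comp_apply, AlgHom.comp_apply, AlgHom.comp_apply, AlgHom.id_apply, diamEv_X]
  simp only [id]
  rw [diamAlgHom_gen, diamAlgHom_gen]
  apply Subtype.ext
  show diamGenL M Kb (diamPerm M d (diamPerm M d⁻¹ i)) = diamGenL M Kb i
  rw [diamPerm_inv_apply]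

variable {M} in
/-- the diamond automorphism of the algebra. -/
def diamAlgEquiv (hM : DiamondComplexOne M) (d : (ZMod M)ˣ) : diamAlg M Kb ≃ₐ[Kb] diamAlg M Kb :=
  AlgEquiv.ofAlgHom (diamAlgHom hM d) (diamAlgHom hM d⁻¹) (diamAlgHom_comp_inv hM d)
    (by simpa using diamAlgHom_comp_inv hM d⁻¹)

/-! ### the function field is the fraction field of the algebra -/

theorem coeffEmb_mem_diamField {x : LaurentSeries ℚ} (hx : x ∈ FOne M) :
    coeffEmb Kb x ∈ IntermediateField.adjoin Kb (⇑(coeffEmb Kb) '' genOne M) := by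
  have hx' : x ∈ IntermediateField.adjoin ℚ (genOne M) := hx
  induction hx' using IntermediateField.adjoin_induction with
  | mem y hy => exact IntermediateField.subset_adjoin Kb _ ⟨y, hy, rfl⟩
  | algebraMap c =>
      have : coeffEmb Kb (algebraMap ℚ (LaurentSeries ℚ) c)
          = algebraMap Kb (LaurentSeries Kb) (algebraMap ℚ Kb c) :=
        hdiam_coeffMap_algebraMap _ c
      rw [this]
      exact IntermediateField.algebraMap_mem _ _
  | add y z hy' hz' hy hz =>
      rw [map_add]
      exact add_mem (hy hy') (hz hz')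
  | inv y hy' hy =>
      rw [map_inv₀]
      exact inv_mem (hy hy')
  | mul y z hy' hz' hy hz =>
      rw [map_mul]
      exact mul_mem (hy hy') (hz hz')

theorem FOneBar_eq_diamField :
    FOneBar M = IntermediateField.adjoin Kb (⇑(coeffEmb Kb) '' genOne M) := by
  apply le_antisymm
  · rw [FOneBar, laurentBaseChange, IntermediateField.adjoin_le_iff]
    rintro _ ⟨x, hx, rfl⟩
    exact coeffEmb_mem_diamField M hx
  · exact IntermediateField.adjoin.mono Kb _ _
      (Set.image_mono (IntermediateField.subset_adjoin ℚ (genOne M)))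

/-! ### the automorphism of the function field -/

/-- the field generated by the generators over `ℚ̄`. -/
abbrev diamField : IntermediateField Kb (LaurentSeries Kb) :=
  IntermediateField.adjoin Kb (⇑(coeffEmb Kb) '' genOne M)

open IntermediateField.algebraAdjoinAdjoin in
variable {M} in
/-- the diamond automorphism of the field generated by the generators. -/
def diamFieldEquiv (hM : DiamondComplexOne M) (d : (ZMod M)ˣ) :
    diamField M ≃ₐ[Kb] diamField M :=
  IsFractionRing.algEquivOfAlgEquiv (diamAlgEquiv hM d)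

open IntermediateField.algebraAdjoinAdjoin in
variable {M} in
theorem coe_diamFieldEquiv_gen (hM : DiamondComplexOne M) (d : (ZMod M)ˣ) (i : DiamIdx M)
    (h : diamGenL M Kb i ∈ diamField M) :
    ((diamFieldEquiv hM d ⟨diamGenL M Kb i, h⟩ : diamField M) : LaurentSeries Kb)
      = diamGenL M Kb (diamPerm M d i) := by
  have h1 := IsFractionRing.algEquivOfAlgEquiv_algebraMap (K := diamField M) (L := diamField M)
    (diamAlgEquiv hM d) ⟨diamGenL M Kb i, diamGenL_mem M Kb i⟩
  have h2 : diamAlgEquiv hM d ⟨diamGenL M Kb i, diamGenL_mem M Kb i⟩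
      = ⟨diamGenL M Kb (diamPerm M d i), diamGenL_mem M Kb _⟩ := diamAlgHom_gen hM d i
  rw [h2] at h1
  exact congrArg (fun z : diamField M => (z : LaurentSeries Kb)) h1

/-- **(H-DIAM)** the diamond automorphisms of `ℚ̄ F₁(M)` exist. -/
theorem diamondExistsOne_of (M : ℕ) [NeZero M] : DiamondComplexOne M → DiamondExistsOne M := by
  intro hM d
  have key : ∀ (i : DiamIdx M) (h₁ : diamGenL M Kb i ∈ FOneBar M)
      (h₂ : diamGenL M Kb (diamPerm M d i) ∈ FOneBar M),
      ((IntermediateField.equivOfEq (FOneBar_eq_diamField M)).trans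
        ((diamFieldEquiv hM d).trans (IntermediateField.equivOfEq (FOneBar_eq_diamField M)).symm))
        ⟨diamGenL M Kb i, h₁⟩ = ⟨diamGenL M Kb (diamPerm M d i), h₂⟩ := by
    intro i h₁ h₂
    apply Subtype.ext
    exact coe_diamFieldEquiv_gen hM d i _
  refine ⟨(IntermediateField.equivOfEq (FOneBar_eq_diamField M)).trans
    ((diamFieldEquiv hM d).trans (IntermediateField.equivOfEq (FOneBar_eq_diamField M)).symm),
    ?_, ?_⟩
  · intro x hx hmem
    exact key (Sum.inl ⟨x, hx⟩) hmem hmem
  · intro a ha h₁ h₂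
    exact key (Sum.inr ⟨a, ha⟩) h₁ h₂

end Fermat.Agent.S48W
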