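/-
S48 wall (W), BLOCK H, seat H-INP (helper58): the inputs of the Hecke correspondence `T_p` on
`J₁(M)` from "the function fields are function fields in one variable".

Exactly `Lib/HeckeInputs/Modular.lean` (`hi_heckeInputsAlong_of_isFunctionFieldOver`) with
`qSeriesAlpha` / `qSeriesBeta` instead of `heckeAlphaBar` / `heckeBetaBar`.
-/
import Mathlib
import Fermat.Agent.S48.W.H.Defs
import Fermat.Agent.Lib.HeckeInputs.Modular

set_option autoImplicit false
set_option linter.style.haveILetI false

noncomputable section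

namespace Fermat.Agent.S48W

open ModularCurve AlgebraicCurve IntermediateField Fermat.Agent.S24Diff
  Fermat.Agent.HeckeInputs

local notation "Kb" => AlgebraicClosure ℚ

/-- generic form: the inputs of the norm correspondence `(β, α)` for fields of `q`-series
`F₀ ≤ F₁`, `F₀(q^p) ⊆ F₁`, whose base changes to `L` are function fields in one variable. -/
theorem qSeriesInputs_of_isFunctionFieldOver (L : Type*) [Field L] [Algebra ℚ L] [IsAlgClosed L]
    [CharZero L] {F₀ F₁ : IntermediateField ℚ (LaurentSeries ℚ)} (h01 : F₀ ≤ F₁) (p : ℕ)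
    [NeZero p] (hF : ∀ y ∈ F₀, qExpand ℚ p y ∈ F₁)
    {x : laurentBaseChange L F₀} (h : IsFunctionFieldOver L (laurentBaseChange L F₀) x)
    {x' : laurentBaseChange L F₁} (h' : IsFunctionFieldOver L (laurentBaseChange L F₁) x') :
    QSeriesInputs L h01 p hF := by
  have hfinα : FiniteAlong L (qSeriesAlpha L h01) := hi_finiteAlong _ h.transcendental h'
  have hfinβ : FiniteAlong L (qSeriesBeta L p hF) := hi_finiteAlong _ h.transcendental h'
  have hα : (qSeriesAlpha L h01).toRingHom.IsIntegral := hi_isIntegral_of_finiteAlong _ hfinα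
  have hβ : (qSeriesBeta L p hF).toRingHom.IsIntegral := hi_isIntegral_of_finiteAlong _ hfinβ
  haveI hP : HasPrincipalDivisors L (laurentBaseChange L F₁) := hasPrincipalDivisors h'
  exact ⟨hα, hβ, hP, hfinα, hi_fundamentalIdentityAlong _ hβ h h',
    hi_normFormulaAlong _ hfinα h h'⟩

/-- **(H-INP)** the inputs of `T_p` at level `Γ₁(M)`. -/
theorem heckeInputsOne_of (M p : ℕ) [NeZero M] [NeZero p] :
    FunctionFieldOne M → FunctionFieldOneP M p → HeckeInputsOne M p := fun h h' =>
  qSeriesInputs_of_isFunctionFieldOver Kb (FOne_le_FOneP M p) p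
    (fun _ hy => qExpand_mem_FOneP M p hy) h h'

end Fermat.Agent.S48W
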