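/-
S48 wall (W), block H, seat H-FF (owner helper49), generic part.

* `isFunctionFieldOver_of_finite` : a finite extension of a function field in one variable is a
  function field in one variable, with the same witness;
* `finiteDimensional_of_adjoin_finite` : inside an ambient field, `E₀ ≤ E₁ ≤ E₀(B)` with `B` finite
  and integral over `E₀` gives `E₁` finite over `E₀`;
* `laurentBaseChange_adjoin_le` : `L · ℚ(G) ≤ L(G)`.
-/
import Mathlib
import Fermat.Agent.S24.FFDefs
import Fermat.Prelude.Def_ModularCurve_LaurentCoeff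

set_option autoImplicit false

noncomputable section

namespace Fermat.Agent.S48W

open ModularCurve IntermediateField
open Fermat.Agent.S24Diff

section Tower

variable {K E F : Type*} [Field K] [Field E] [Field F] [Algebra K E] [Algebra K F]
  [Algebra E F] [IsScalarTower K E F]

theorem algebraMap_mem_adjoin_simple_of_mem {x : E} (a : E) (ha : a ∈ K⟮x⟯) :
    algebraMap E F a ∈ K⟮algebraMap E F x⟯ := by
  have h : (IsScalarTower.toAlgHom K E F) a ∈ (K⟮x⟯).map (IsScalarTower.toAlgHom K E F) :=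
    ⟨a, ha, rfl⟩
  rw [IntermediateField.adjoin_map, Set.image_singleton] at h
  exact h

/-- the ring homomorphism `K(x) → K(i x)` induced by `i : E → F`. -/
def adjoinSimpleMap (x : E) : K⟮x⟯ →+* K⟮algebraMap E F x⟯ where
  toFun a := ⟨algebraMap E F (a : E), algebraMap_mem_adjoin_simple_of_mem (a : E) a.2⟩
  map_one' := Subtype.ext (by simp)
  map_mul' a b := Subtype.ext (by simp)
  map_zero' := Subtype.ext (by simp)
  map_add' a b := Subtype.ext (by simp)

/-- **tower lemma**: a finite extension of a function field in one variable is a function field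
in one variable, with the same witness. -/
theorem isFunctionFieldOver_of_finite {x : E} (h : IsFunctionFieldOver K E x)
    [FiniteDimensional E F] : IsFunctionFieldOver K F (algebraMap E F x) := by
  refine ⟨?_, ?_⟩
  · exact (transcendental_algebraMap_iff (algebraMap E F).injective).mpr h.transcendental
  · haveI := h.finite
    haveI : Module.Finite K⟮x⟯ F := Module.Finite.trans E F
    letI : Algebra K⟮x⟯ K⟮algebraMap E F x⟯ := (adjoinSimpleMap (K := K) (F := F) x).toAlgebra
    haveI : IsScalarTower K⟮x⟯ K⟮algebraMap E F x⟯ F := IsScalarTower.of_algebraMap_eq fun _ => rfl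
    exact Module.Finite.of_restrictScalars_finite K⟮x⟯ K⟮algebraMap E F x⟯ F

end Tower

section Ambient

variable {K Ω : Type*} [Field K] [Field Ω] [Algebra K Ω]

/-- inside an ambient field: `E₀ ≤ E₁ ≤ E₀(B)`, `B` finite and integral over `E₀`, then `E₁` is
finite over `E₀` (for the algebra structure of the inclusion). -/
theorem finiteDimensional_of_adjoin_finite (E₀ E₁ : IntermediateField K Ω) (h01 : E₀ ≤ E₁)
    (B : Set Ω) [Finite B] (hB : ∀ b ∈ B, IsIntegral E₀ b)
    (hE₁ : E₁ ≤ adjoin K ((E₀ : Set Ω) ∪ B)) :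
    letI : Algebra E₀ E₁ := (IntermediateField.inclusion h01).toRingHom.toAlgebra
    FiniteDimensional E₀ E₁ := by
  letI : Algebra E₀ E₁ := (IntermediateField.inclusion h01).toRingHom.toAlgebra
  haveI : FiniteDimensional E₀ (adjoin E₀ B) := IntermediateField.finiteDimensional_adjoin hB
  have hle : ∀ y : Ω, y ∈ E₁ → y ∈ adjoin E₀ B := by
    intro y hy
    have h1 : adjoin K ((E₀ : Set Ω) ∪ B) ≤ (adjoin E₀ B).restrictScalars K := by
      rw [IntermediateField.adjoin_le_iff]
      rintro z (hz | hz)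
      · exact (adjoin E₀ B).algebraMap_mem ⟨z, hz⟩
      · exact IntermediateField.subset_adjoin E₀ B hz
    exact h1 (hE₁ hy)
  let f : E₁ →ₗ[E₀] adjoin E₀ B :=
    { toFun := fun y => ⟨(y : Ω), hle _ y.2⟩
      map_add' := fun y z => rfl
      map_smul' := fun e y => rfl }
  have hf : Function.Injective f := by
    intro y z hyz
    apply Subtype.ext
    exact congrArg (fun w : adjoin E₀ B => (w : Ω)) hyz
  exact FiniteDimensional.of_injective f hf

/-- the ring homomorphism `K(x₁) → E₀` for `x₁ ∈ E'` whose underlying element lies in `E₀`. -/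
theorem coe_mem_of_mem_adjoin_simple (E₀ E' : IntermediateField K Ω) (x₁ : E')
    (hx : (x₁ : Ω) ∈ E₀) (c : E') (hc : c ∈ K⟮x₁⟯) : (c : Ω) ∈ E₀ := by
  have h2 : algebraMap E' Ω c ∈ K⟮algebraMap E' Ω x₁⟯ :=
    algebraMap_mem_adjoin_simple_of_mem (K := K) (F := Ω) (x := x₁) c hc
  have h3 : K⟮algebraMap E' Ω x₁⟯ ≤ E₀ := by
    rw [IntermediateField.adjoin_simple_le_iff]
    exact hx
  exact h3 h2

/-- inside an ambient field: if `E'` is finite over `K(x)` and `x ∈ E₀`, then every element of
`E'` is algebraic over `E₀`. -/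
theorem isAlgebraic_of_mem_of_finite (E₀ E' : IntermediateField K Ω) (x₁ : E')
    (hx : (x₁ : Ω) ∈ E₀) (hfin : FiniteDimensional K⟮x₁⟯ E') {z : Ω} (hz : z ∈ E') :
    IsAlgebraic E₀ z := by
  have h1 : IsAlgebraic K⟮x₁⟯ (⟨z, hz⟩ : E') :=
    (IsIntegral.of_finite K⟮x₁⟯ (⟨z, hz⟩ : E')).isAlgebraic
  let f : K⟮x₁⟯ →+* E₀ :=
    { toFun := fun c => ⟨((c : E') : Ω), coe_mem_of_mem_adjoin_simple E₀ E' x₁ hx c c.2⟩
      map_one' := rfl
      map_mul' := fun _ _ => rfl
      map_zero' := rfl
      map_add' := fun _ _ => rfl }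
  have hcomp : (algebraMap E₀ Ω).comp f = (algebraMap E' Ω).comp (algebraMap K⟮x₁⟯ E') :=
    RingHom.ext fun _ => rfl
  exact h1.ringHom_of_comp_eq f (algebraMap E' Ω) f.injective hcomp

/-- inside an ambient field: a ring endomorphism `ρ` of `Ω` with `ρ(E₀) ⊆ E'`, `E'` algebraic
over `E₀`, maps elements algebraic over `E₀` to elements algebraic over `E₀`. -/
theorem isAlgebraic_ringHom_of_isAlgebraic (E₀ E' : IntermediateField K Ω) (ρ : Ω →+* Ω)
    (hρ : ∀ e ∈ E₀, ρ e ∈ E') (hE' : ∀ z ∈ E', IsAlgebraic E₀ z) {a : Ω}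
    (ha : IsAlgebraic E₀ a) : IsAlgebraic E₀ (ρ a) := by
  haveI : Algebra.IsAlgebraic E₀ (adjoin E₀ (E' : Set Ω)) :=
    IntermediateField.isAlgebraic_adjoin fun z hz => (hE' z hz).isIntegral
  have h1 : IsAlgebraic (adjoin E₀ (E' : Set Ω)) (ρ a) := by
    let f : E₀ →+* adjoin E₀ (E' : Set Ω) :=
      { toFun := fun e => ⟨ρ (e : Ω), IntermediateField.subset_adjoin E₀ _ (hρ _ e.2)⟩
        map_one' := Subtype.ext (map_one _)
        map_mul' := fun _ _ => Subtype.ext (map_mul _ _ _)
        map_zero' := Subtype.ext (map_zero _)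
        map_add' := fun _ _ => Subtype.ext (map_add _ _ _) }
    have hcomp : (algebraMap (adjoin E₀ (E' : Set Ω)) Ω).comp f = ρ.comp (algebraMap E₀ Ω) :=
      RingHom.ext fun _ => rfl
    exact ha.ringHom_of_comp_eq f ρ f.injective hcomp
  exact h1.restrictScalars E₀

/-- inside an ambient field: `E₀ ≤ E₁ ≤ E₀(B)`, `B` finite and integral over `E₀`, `E₀` a function
field in one variable witnessed by `j`: then `E₁` is a function field in one variable witnessed
by `j`. -/
theorem isFunctionFieldOver_of_adjoin_finite (E₀ E₁ : IntermediateField K Ω) (h01 : E₀ ≤ E₁)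
    (j : Ω) (hj0 : j ∈ E₀) (hj1 : j ∈ E₁)
    (h : IsFunctionFieldOver K E₀ (⟨j, hj0⟩ : E₀))
    (B : Set Ω) [Finite B] (hB : ∀ b ∈ B, IsIntegral E₀ b)
    (hE₁ : E₁ ≤ adjoin K ((E₀ : Set Ω) ∪ B)) :
    IsFunctionFieldOver K E₁ (⟨j, hj1⟩ : E₁) := by
  letI : Algebra E₀ E₁ := (IntermediateField.inclusion h01).toRingHom.toAlgebra
  haveI : IsScalarTower K E₀ E₁ := IsScalarTower.of_algebraMap_eq fun _ => rfl
  haveI : FiniteDimensional E₀ E₁ := finiteDimensional_of_adjoin_finite E₀ E₁ h01 B hB hE₁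
  exact isFunctionFieldOver_of_finite h

end Ambient

section BaseChange

variable (L : Type*) [Field L] [Algebra ℚ L]

theorem coeffEmb_algebraMap_ff (r : ℚ) :
    coeffEmb L (algebraMap ℚ (LaurentSeries ℚ) r)
      = algebraMap L (LaurentSeries L) (algebraMap ℚ L r) := by
  rw [algebraMap_laurentSeries_eq_single, algebraMap_laurentSeries_eq_single]
  exact coeffMap_single _ _ _

/-- a ring homomorphism compatible with the constants maps `ℚ(G)` into `L(ρ G)`. -/
theorem ringHom_mem_adjoin_of_mem_adjoin (ρ : LaurentSeries ℚ →+* LaurentSeries L)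
    (hρ : ∀ r : ℚ, ρ (algebraMap ℚ (LaurentSeries ℚ) r)
      = algebraMap L (LaurentSeries L) (algebraMap ℚ L r))
    (G : Set (LaurentSeries ℚ)) {y : LaurentSeries ℚ} (hy : y ∈ adjoin ℚ G) :
    ρ y ∈ adjoin L (⇑ρ '' G) := by
  induction hy using IntermediateField.adjoin_induction with
  | mem x hx => exact IntermediateField.subset_adjoin L _ ⟨x, hx, rfl⟩
  | algebraMap r =>
      rw [hρ]
      exact IntermediateField.algebraMap_mem _ _
  | add x y _ _ hx hy => rw [map_add]; exact add_mem hx hy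
  | inv x _ hx => rw [map_inv₀]; exact inv_mem hx
  | mul x y _ _ hx hy => rw [map_mul]; exact mul_mem hx hy

/-- `L · ℚ(G) ≤ L(G)`. -/
theorem laurentBaseChange_adjoin_le (G : Set (LaurentSeries ℚ)) :
    laurentBaseChange L (adjoin ℚ G) ≤ adjoin L (⇑(coeffEmb L) '' G) := by
  rw [laurentBaseChange, IntermediateField.adjoin_le_iff]
  rintro _ ⟨y, hy, rfl⟩
  exact ringHom_mem_adjoin_of_mem_adjoin L (coeffEmb L) (coeffEmb_algebraMap_ff L) G hy

end BaseChange

end Fermat.Agent.S48W
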