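/-
S48 wall (W), block H, seat H-FF (owner helper49).

`ℚ̄ F₁(M)` and `ℚ̄ F(Γ₁(M) ∩ Γ₀(p))` are function fields in one variable over `ℚ̄`, witnessed by
`j`: they are generated over `ℚ̄ F₀(M)` (a function field, `S24.isFunctionFieldOver_jBar`) by
finitely many elements which are algebraic over `ℚ̄ F₀(M)`:
* the Fricke functions (input `FrickeAlgebraicBarOne M` from the hub A1),
* `j(q^{p d})`, `d ∣ M` (in `ℚ̄ F₀(M p)`, which is algebraic over `ℚ̄(j)`),
* the `fricke(q^p)` (algebraic over `ℚ̄ F₀(M p)`: apply `q ↦ q^p` to the equation).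
-/
import Mathlib
import Fermat.Agent.S48.W.H.DefsBar
import Fermat.Agent.S48.W.H.FFGen
import Fermat.Agent.S24.GlobalDatum

set_option autoImplicit false

noncomputable section

namespace Fermat.Agent.S48W

open ModularCurve AlgebraicCurve IntermediateField
open Fermat.Agent.S24Diff

local notation "Kb" => AlgebraicClosure ℚ
local notation "Ωb" => LaurentSeries (AlgebraicClosure ℚ)

/-! ### finiteness of the sets of generators -/

/-- the set of Fricke functions. -/
def frickeSet (M : ℕ) [NeZero M] : Set (LaurentSeries ℚ) :=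
  {x | ∃ a : ZMod M, a ≠ 0 ∧ x = fricke M a}

theorem genOne_eq (M : ℕ) [NeZero M] : genOne M = divisorExpansions M ∪ frickeSet M := rfl

theorem finite_frickeSet (M : ℕ) [NeZero M] : (frickeSet M).Finite := by
  refine (Set.finite_range (fricke M)).subset ?_
  rintro x ⟨a, -, rfl⟩
  exact ⟨a, rfl⟩

theorem finite_divisorExpansions (M : ℕ) [NeZero M] : (divisorExpansions M).Finite := by
  classical
  refine ((Finset.range (M + 1)).finite_toSet.image
    (fun d : ℕ => if h : d = 0 then (0 : LaurentSeries ℚ)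
      else @qExpand ℚ _ d ⟨h⟩ jq)).subset ?_
  rintro x ⟨d, hne, hdvd, rfl⟩
  refine ⟨d, ?_, ?_⟩
  · rw [Finset.coe_range, Set.mem_Iio]
    exact Nat.lt_succ_of_le (Nat.le_of_dvd (Nat.pos_of_ne_zero (NeZero.ne M)) hdvd)
  · simp only [dif_neg (NeZero.ne d)]

theorem finite_genOne (M : ℕ) [NeZero M] : (genOne M).Finite :=
  (finite_divisorExpansions M).union (finite_frickeSet M)

/-! ### the base `E₀ = ℚ̄ F₀(M)` -/

theorem coeffEmb_jq_mem_bar (M : ℕ) [NeZero M] :
    coeffEmb Kb jq ∈ modularFunctionFieldBar M := by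
  have h := jqd_mem_full M (one_dvd M)
  rw [qExpand_one_apply] at h
  exact coeffEmb_mem_laurentBaseChange Kb h

theorem coeffEmb_divisorExpansion_mem_bar (M : ℕ) [NeZero M] {x : LaurentSeries ℚ}
    (hx : x ∈ divisorExpansions M) : coeffEmb Kb x ∈ modularFunctionFieldBar M :=
  coeffEmb_mem_laurentBaseChange Kb (IntermediateField.subset_adjoin ℚ _ hx)

/-- every element of `ℚ̄ F₀(N)` is algebraic over `ℚ̄ F₀(M)` (both are algebraic over `ℚ̄(j)`). -/
theorem isAlgebraic_bar_of_mem_bar (M N : ℕ) [NeZero M] [NeZero N] {z : Ωb}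
    (hz : z ∈ modularFunctionFieldBar N) : IsAlgebraic (modularFunctionFieldBar M) z :=
  isAlgebraic_of_mem_of_finite (modularFunctionFieldBar M) (modularFunctionFieldBar N)
    (Fermat.Agent.S24.jBar N) (coeffEmb_jq_mem_bar M)
    (Fermat.Agent.S24.isFunctionFieldOver_jBar N).finite hz

/-! ### `ℚ̄ F₁(M)` -/

theorem foneBar_le (M : ℕ) [NeZero M] :
    FOneBar M ≤ adjoin Kb (((modularFunctionFieldBar M : IntermediateField Kb Ωb) : Set Ωb)
      ∪ ⇑(coeffEmb Kb) '' frickeSet M) := by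
  refine (laurentBaseChange_adjoin_le Kb (genOne M)).trans ?_
  rw [IntermediateField.adjoin_le_iff]
  rintro _ ⟨x, hx, rfl⟩
  rcases hx with hx | hx
  · exact IntermediateField.subset_adjoin Kb _ (Or.inl (coeffEmb_divisorExpansion_mem_bar M hx))
  · exact IntermediateField.subset_adjoin Kb _ (Or.inr ⟨x, hx, rfl⟩)

theorem bar_le_foneBar (M : ℕ) [NeZero M] : modularFunctionFieldBar M ≤ FOneBar M :=
  laurentBaseChange_mono_w Kb (full_le_FOne M)

/-- **H-FF**, `ℚ̄`-form. -/
theorem functionFieldOne_of_bar (M : ℕ) [NeZero M] (h : FrickeAlgebraicBarOne M) :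
    FunctionFieldOne M := by
  haveI : Finite (⇑(coeffEmb Kb) '' frickeSet M) :=
    ((finite_frickeSet M).image _).to_subtype
  have hB : ∀ b ∈ ⇑(coeffEmb Kb) '' frickeSet M, IsIntegral (modularFunctionFieldBar M) b := by
    rintro _ ⟨x, ⟨a, ha, rfl⟩, rfl⟩
    exact (h a ha).isIntegral
  exact isFunctionFieldOver_of_adjoin_finite (modularFunctionFieldBar M) (FOneBar M)
    (bar_le_foneBar M) (coeffEmb Kb jq) (coeffEmb_jq_mem_bar M)
    (coeffEmb_mem_laurentBaseChange Kb (jq_mem_FOne M))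
    (Fermat.Agent.S24.isFunctionFieldOver_jBar M) _ hB (foneBar_le M)

/-- **H-FF**. -/
theorem functionFieldOne_of (M : ℕ) [NeZero M] (h : FrickeAlgebraicOne M) :
    FunctionFieldOne M :=
  functionFieldOne_of_bar M (frickeAlgebraicBarOne_of M h)

/-! ### `ℚ̄ F(Γ₁(M) ∩ Γ₀(p))` -/

/-- the ring homomorphism `x ↦ x(q^p)` with coefficients in `ℚ̄`. -/
def coeffEmbP (p : ℕ) [NeZero p] : LaurentSeries ℚ →+* Ωb :=
  (coeffEmb Kb).comp (qExpand ℚ p)

theorem coeffEmbP_apply (p : ℕ) [NeZero p] (x : LaurentSeries ℚ) :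
    coeffEmbP p x = coeffEmb Kb (qExpand ℚ p x) := rfl

theorem coeffEmbP_eq (p : ℕ) [NeZero p] (x : LaurentSeries ℚ) :
    coeffEmbP p x = qExpand Kb p (coeffEmb Kb x) := coeffEmb_qExpand_w Kb p x

theorem coeffEmbP_algebraMap (p : ℕ) [NeZero p] (r : ℚ) :
    coeffEmbP p (algebraMap ℚ (LaurentSeries ℚ) r)
      = algebraMap Kb Ωb (algebraMap ℚ Kb r) := by
  rw [coeffEmbP_apply, algebraMap_laurentSeries_eq_single, qExpand_single, mul_zero,
    ← algebraMap_laurentSeries_eq_single]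
  exact coeffEmb_algebraMap_ff Kb r

theorem qExpand_mem_bar (M p : ℕ) [NeZero M] [NeZero p] {z : Ωb}
    (hz : z ∈ modularFunctionFieldBar M) :
    qExpand Kb p z ∈ laurentBaseChange Kb (modularFunctionFieldFull (M * p)) := by
  refine qExpand_mem_laurentBaseChange_w p (fun y hy => ?_) hz
  exact full_degeneracy_map_le M p ⟨y, hy, rfl⟩

/-- the second set of generators: the `x(q^p)`, `x` a generator of `F₁(M)`. -/
theorem isIntegral_coeffEmbP_gen (M p : ℕ) [NeZero M] [NeZero p]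
    (h : FrickeAlgebraicBarOne M) {x : LaurentSeries ℚ} (hx : x ∈ genOne M) :
    IsIntegral (modularFunctionFieldBar M) (coeffEmbP p x) := by
  haveI : NeZero (M * p) := ⟨Nat.mul_ne_zero (NeZero.ne M) (NeZero.ne p)⟩
  rcases hx with hx | ⟨a, ha, rfl⟩
  · -- `j(q^{p d})`
    apply IsAlgebraic.isIntegral
    apply isAlgebraic_bar_of_mem_bar M (M * p)
    rw [coeffEmbP_eq]
    exact qExpand_mem_bar M p (coeffEmb_divisorExpansion_mem_bar M hx)
  · -- `fricke(q^p)`
    apply IsAlgebraic.isIntegral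
    rw [coeffEmbP_eq]
    exact isAlgebraic_ringHom_of_isAlgebraic (modularFunctionFieldBar M)
      (laurentBaseChange Kb (modularFunctionFieldFull (M * p))) (qExpand Kb p)
      (fun e he => qExpand_mem_bar M p he)
      (fun z hz => isAlgebraic_bar_of_mem_bar M (M * p) hz) (h a ha)

theorem fonePBar_le (M p : ℕ) [NeZero M] [NeZero p] :
    laurentBaseChange Kb (FOneP M p)
      ≤ adjoin Kb (((modularFunctionFieldBar M : IntermediateField Kb Ωb) : Set Ωb)
        ∪ (⇑(coeffEmb Kb) '' frickeSet M ∪ ⇑(coeffEmbP p) '' genOne M)) := by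
  refine (laurentBaseChange_adjoin_le Kb _).trans ?_
  rw [IntermediateField.adjoin_le_iff]
  rintro _ ⟨x, hx, rfl⟩
  rcases hx with hx | ⟨y, hy, rfl⟩
  · -- `x ∈ F₁(M)`
    have h1 : coeffEmb Kb x ∈ FOneBar M := coeffEmb_mem_laurentBaseChange Kb hx
    have h2 := foneBar_le M h1
    refine IntermediateField.adjoin.mono Kb _ _ ?_ h2
    rintro z (hz | hz)
    · exact Or.inl hz
    · exact Or.inr (Or.inl hz)
  · -- `x = y(q^p)`, `y ∈ F₁(M)`
    have h1 := ringHom_mem_adjoin_of_mem_adjoin Kb (coeffEmbP p) (coeffEmbP_algebraMap p)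
      (genOne M) hy
    refine IntermediateField.adjoin.mono Kb _ _ ?_ h1
    intro z hz
    exact Or.inr (Or.inr hz)

theorem bar_le_fonePBar (M p : ℕ) [NeZero M] [NeZero p] :
    modularFunctionFieldBar M ≤ laurentBaseChange Kb (FOneP M p) :=
  laurentBaseChange_mono_w Kb ((full_le_FOne M).trans (FOne_le_FOneP M p))

/-- **H-FF** for the level `Γ₁(M) ∩ Γ₀(p)`, `ℚ̄`-form. -/
theorem functionFieldOneP_of_bar (M p : ℕ) [NeZero M] [NeZero p]
    (h : FrickeAlgebraicBarOne M) : FunctionFieldOneP M p := by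
  haveI : Finite (⇑(coeffEmb Kb) '' frickeSet M ∪ ⇑(coeffEmbP p) '' genOne M : Set Ωb) :=
    (((finite_frickeSet M).image _).union ((finite_genOne M).image _)).to_subtype
  have hB : ∀ b ∈ (⇑(coeffEmb Kb) '' frickeSet M ∪ ⇑(coeffEmbP p) '' genOne M : Set Ωb),
      IsIntegral (modularFunctionFieldBar M) b := by
    rintro _ (⟨x, ⟨a, ha, rfl⟩, rfl⟩ | ⟨x, hx, rfl⟩)
    · exact (h a ha).isIntegral
    · exact isIntegral_coeffEmbP_gen M p h hx
  exact isFunctionFieldOver_of_adjoin_finite (modularFunctionFieldBar M)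
    (laurentBaseChange Kb (FOneP M p)) (bar_le_fonePBar M p) (coeffEmb Kb jq)
    (coeffEmb_jq_mem_bar M)
    (coeffEmb_mem_laurentBaseChange Kb (FOne_le_FOneP M p (jq_mem_FOne M)))
    (Fermat.Agent.S24.isFunctionFieldOver_jBar M) _ hB (fonePBar_le M p)

/-- **H-FF** for the level `Γ₁(M) ∩ Γ₀(p)`. -/
theorem functionFieldOneP_of (M p : ℕ) [NeZero M] [NeZero p] (h : FrickeAlgebraicOne M) :
    FunctionFieldOneP M p :=
  functionFieldOneP_of_bar M p (frickeAlgebraicBarOne_of M h)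

end Fermat.Agent.S48W
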