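/-
S48 wall (W), block H, seat H-FF (owner helper49), the form over an arbitrary field of constants
`L ⊇ ℚ` (used with `L = ℂ` by block A, seat A-INP).

`L F₁(M)` and `L F(Γ₁(M) ∩ Γ₀(p))` are function fields in one variable over `L`, witnessed by `j`,
as soon as all the `L F₀(N)` are (`BaseFunctionFieldL L`; for `L = ℂ` this is
`F3Dict.isFunctionFieldOver_jBar`) and the Fricke functions are algebraic over `F₀(M)`.
Same proof as `H/FF.lean`.
-/
import Mathlib
import Fermat.Agent.S48.W.H.FF
import Fermat.Agent.F3.DictC.GlobalDatum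

set_option autoImplicit false

noncomputable section

namespace Fermat.Agent.S48W

open ModularCurve AlgebraicCurve IntermediateField
open Fermat.Agent.S24Diff

section Generic

variable (L : Type*) [Field L] [Algebra ℚ L]

/-! ### the base `E₀ = L F₀(M)` -/

theorem coeffEmb_jq_mem_fullL (M : ℕ) [NeZero M] :
    coeffEmb L jq ∈ laurentBaseChange L (modularFunctionFieldFull M) := by
  have h := jqd_mem_full M (one_dvd M)
  rw [qExpand_one_apply] at h
  exact coeffEmb_mem_laurentBaseChange L h

/-- `j` as an element of `L F₀(M)`. -/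
def jFullL (M : ℕ) [NeZero M] : laurentBaseChange L (modularFunctionFieldFull M) :=
  ⟨coeffEmb L jq, coeffEmb_jq_mem_fullL L M⟩

/-- `j` as an element of `L F₁(M)`. -/
def jOneL (M : ℕ) [NeZero M] : laurentBaseChange L (FOne M) :=
  ⟨coeffEmb L jq, coeffEmb_mem_laurentBaseChange L (jq_mem_FOne M)⟩

/-- `j` as an element of `L F(Γ₁(M) ∩ Γ₀(p))`. -/
def jOnePL (M p : ℕ) [NeZero M] [NeZero p] : laurentBaseChange L (FOneP M p) :=
  ⟨coeffEmb L jq, coeffEmb_mem_laurentBaseChange L (FOne_le_FOneP M p (jq_mem_FOne M))⟩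

/-- the hypothesis on the base: all the `L F₀(N)` are function fields in one variable over `L`,
witnessed by `j`. -/
def BaseFunctionFieldL : Prop :=
  ∀ (N : ℕ) [NeZero N],
    IsFunctionFieldOver L (laurentBaseChange L (modularFunctionFieldFull N)) (jFullL L N)

/-- the Fricke functions are algebraic over `L F₀(M)`. -/
def FrickeAlgebraicL (M : ℕ) [NeZero M] : Prop :=
  ∀ a : ZMod M, a ≠ 0 →
    IsAlgebraic (laurentBaseChange L (modularFunctionFieldFull M)) (coeffEmb L (fricke M a))

/-- the `ℚ`-form implies the `L`-form. -/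
theorem frickeAlgebraicL_of (M : ℕ) [NeZero M] (h : FrickeAlgebraicOne M) :
    FrickeAlgebraicL L M := by
  intro a ha
  obtain ⟨P, hP0, hP⟩ := h a ha
  let ι : modularFunctionFieldFull M →+* laurentBaseChange L (modularFunctionFieldFull M) :=
    { toFun := fun x => ⟨coeffEmb L (x : LaurentSeries ℚ), coeffEmb_mem_laurentBaseChange L x.2⟩
      map_one' := Subtype.ext (map_one _)
      map_mul' := fun _ _ => Subtype.ext (map_mul _ _ _)
      map_zero' := Subtype.ext (map_zero _)
      map_add' := fun _ _ => Subtype.ext (map_add _ _ _) }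
  refine ⟨P.map ι, (Polynomial.map_ne_zero_iff ι.injective).mpr hP0, ?_⟩
  have h1 : (algebraMap (laurentBaseChange L (modularFunctionFieldFull M)) (LaurentSeries L)).comp ι
      = (coeffEmb L).comp (algebraMap (modularFunctionFieldFull M) (LaurentSeries ℚ)) :=
    RingHom.ext fun _ => rfl
  rw [Polynomial.aeval_def, Polynomial.eval₂_map, h1, ← Polynomial.hom_eval₂,
    ← Polynomial.aeval_def, hP, map_zero]

theorem coeffEmb_divisorExpansion_mem_fullL (M : ℕ) [NeZero M] {x : LaurentSeries ℚ}
    (hx : x ∈ divisorExpansions M) :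
    coeffEmb L x ∈ laurentBaseChange L (modularFunctionFieldFull M) :=
  coeffEmb_mem_laurentBaseChange L (IntermediateField.subset_adjoin ℚ _ hx)

variable {L} in
/-- every element of `L F₀(N)` is algebraic over `L F₀(M)` (both are algebraic over `L(j)`). -/
theorem isAlgebraic_fullL_of_mem_fullL (hbase : BaseFunctionFieldL L) (M N : ℕ) [NeZero M]
    [NeZero N] {z : LaurentSeries L}
    (hz : z ∈ laurentBaseChange L (modularFunctionFieldFull N)) :
    IsAlgebraic (laurentBaseChange L (modularFunctionFieldFull M)) z :=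
  isAlgebraic_of_mem_of_finite (laurentBaseChange L (modularFunctionFieldFull M))
    (laurentBaseChange L (modularFunctionFieldFull N))
    (jFullL L N) (coeffEmb_jq_mem_fullL L M) (hbase N).finite hz

/-! ### `L F₁(M)` -/

theorem foneL_le (M : ℕ) [NeZero M] :
    laurentBaseChange L (FOne M)
      ≤ adjoin L (((laurentBaseChange L (modularFunctionFieldFull M) :
          IntermediateField L (LaurentSeries L)) : Set (LaurentSeries L))
        ∪ ⇑(coeffEmb L) '' frickeSet M) := by
  refine (laurentBaseChange_adjoin_le L (genOne M)).trans ?_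
  rw [IntermediateField.adjoin_le_iff]
  rintro _ ⟨x, hx, rfl⟩
  rcases hx with hx | hx
  · exact IntermediateField.subset_adjoin L _
      (Or.inl (coeffEmb_divisorExpansion_mem_fullL L M hx))
  · exact IntermediateField.subset_adjoin L _ (Or.inr ⟨x, hx, rfl⟩)

theorem fullL_le_foneL (M : ℕ) [NeZero M] :
    laurentBaseChange L (modularFunctionFieldFull M) ≤ laurentBaseChange L (FOne M) :=
  laurentBaseChange_mono_w L (full_le_FOne M)

variable {L} in
/-- **H-FF** over `L`, from the `L`-form of the algebraicity of the Fricke functions. -/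
theorem functionFieldOneL_of_fricke (hbase : BaseFunctionFieldL L) (M : ℕ) [NeZero M]
    (h : FrickeAlgebraicL L M) :
    IsFunctionFieldOver L (laurentBaseChange L (FOne M)) (jOneL L M) := by
  haveI : Finite (⇑(coeffEmb L) '' frickeSet M) :=
    ((finite_frickeSet M).image _).to_subtype
  have hB : ∀ b ∈ ⇑(coeffEmb L) '' frickeSet M,
      IsIntegral (laurentBaseChange L (modularFunctionFieldFull M)) b := by
    rintro _ ⟨x, ⟨a, ha, rfl⟩, rfl⟩
    exact (h a ha).isIntegral
  exact isFunctionFieldOver_of_adjoin_finite (laurentBaseChange L (modularFunctionFieldFull M))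
    (laurentBaseChange L (FOne M)) (fullL_le_foneL L M) (coeffEmb L jq)
    (coeffEmb_jq_mem_fullL L M)
    (coeffEmb_mem_laurentBaseChange L (jq_mem_FOne M))
    (hbase M) _ hB (foneL_le L M)

variable {L} in
/-- **H-FF** over `L`. -/
theorem functionFieldOneL_of (hbase : BaseFunctionFieldL L) (M : ℕ) [NeZero M]
    (h : FrickeAlgebraicOne M) :
    IsFunctionFieldOver L (laurentBaseChange L (FOne M)) (jOneL L M) :=
  functionFieldOneL_of_fricke hbase M (frickeAlgebraicL_of L M h)

/-! ### `L F(Γ₁(M) ∩ Γ₀(p))` -/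

/-- the ring homomorphism `x ↦ x(q^p)` with coefficients in `L`. -/
def coeffEmbPL (p : ℕ) [NeZero p] : LaurentSeries ℚ →+* LaurentSeries L :=
  (coeffEmb L).comp (qExpand ℚ p)

theorem coeffEmbPL_apply (p : ℕ) [NeZero p] (x : LaurentSeries ℚ) :
    coeffEmbPL L p x = coeffEmb L (qExpand ℚ p x) := rfl

theorem coeffEmbPL_eq (p : ℕ) [NeZero p] (x : LaurentSeries ℚ) :
    coeffEmbPL L p x = qExpand L p (coeffEmb L x) := coeffEmb_qExpand_w L p x

theorem coeffEmbPL_algebraMap (p : ℕ) [NeZero p] (r : ℚ) :
    coeffEmbPL L p (algebraMap ℚ (LaurentSeries ℚ) r)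
      = algebraMap L (LaurentSeries L) (algebraMap ℚ L r) := by
  rw [coeffEmbPL_apply, algebraMap_laurentSeries_eq_single, qExpand_single, mul_zero,
    ← algebraMap_laurentSeries_eq_single]
  exact coeffEmb_algebraMap_ff L r

theorem qExpand_mem_fullL (M p : ℕ) [NeZero M] [NeZero p] {z : LaurentSeries L}
    (hz : z ∈ laurentBaseChange L (modularFunctionFieldFull M)) :
    qExpand L p z ∈ laurentBaseChange L (modularFunctionFieldFull (M * p)) := by
  refine qExpand_mem_laurentBaseChange_w p (fun y hy => ?_) hz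
  exact full_degeneracy_map_le M p ⟨y, hy, rfl⟩

variable {L} in
/-- the second set of generators: the `x(q^p)`, `x` a generator of `F₁(M)`. -/
theorem isIntegral_coeffEmbPL_gen (hbase : BaseFunctionFieldL L) (M p : ℕ) [NeZero M]
    [NeZero p] (h : FrickeAlgebraicL L M) {x : LaurentSeries ℚ} (hx : x ∈ genOne M) :
    IsIntegral (laurentBaseChange L (modularFunctionFieldFull M)) (coeffEmbPL L p x) := by
  haveI : NeZero (M * p) := ⟨Nat.mul_ne_zero (NeZero.ne M) (NeZero.ne p)⟩
  rcases hx with hx | ⟨a, ha, rfl⟩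
  · -- `j(q^{p d})`
    apply IsAlgebraic.isIntegral
    apply isAlgebraic_fullL_of_mem_fullL hbase M (M * p)
    rw [coeffEmbPL_eq]
    exact qExpand_mem_fullL L M p (coeffEmb_divisorExpansion_mem_fullL L M hx)
  · -- `fricke(q^p)`
    apply IsAlgebraic.isIntegral
    rw [coeffEmbPL_eq]
    exact isAlgebraic_ringHom_of_isAlgebraic (laurentBaseChange L (modularFunctionFieldFull M))
      (laurentBaseChange L (modularFunctionFieldFull (M * p))) (qExpand L p)
      (fun e he => qExpand_mem_fullL L M p he)
      (fun z hz => isAlgebraic_fullL_of_mem_fullL hbase M (M * p) hz) (h a ha)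

theorem fonePL_le (M p : ℕ) [NeZero M] [NeZero p] :
    laurentBaseChange L (FOneP M p)
      ≤ adjoin L (((laurentBaseChange L (modularFunctionFieldFull M) :
          IntermediateField L (LaurentSeries L)) : Set (LaurentSeries L))
        ∪ (⇑(coeffEmb L) '' frickeSet M ∪ ⇑(coeffEmbPL L p) '' genOne M)) := by
  refine (laurentBaseChange_adjoin_le L _).trans ?_
  rw [IntermediateField.adjoin_le_iff]
  rintro _ ⟨x, hx, rfl⟩
  rcases hx with hx | ⟨y, hy, rfl⟩
  · -- `x ∈ F₁(M)`
    have h1 : coeffEmb L x ∈ laurentBaseChange L (FOne M) :=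
      coeffEmb_mem_laurentBaseChange L hx
    have h2 := foneL_le L M h1
    refine IntermediateField.adjoin.mono L _ _ ?_ h2
    rintro z (hz | hz)
    · exact Or.inl hz
    · exact Or.inr (Or.inl hz)
  · -- `x = y(q^p)`, `y ∈ F₁(M)`
    have h1 := ringHom_mem_adjoin_of_mem_adjoin L (coeffEmbPL L p) (coeffEmbPL_algebraMap L p)
      (genOne M) hy
    refine IntermediateField.adjoin.mono L _ _ ?_ h1
    intro z hz
    exact Or.inr (Or.inr hz)

theorem fullL_le_fonePL (M p : ℕ) [NeZero M] [NeZero p] :
    laurentBaseChange L (modularFunctionFieldFull M) ≤ laurentBaseChange L (FOneP M p) :=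
  laurentBaseChange_mono_w L ((full_le_FOne M).trans (FOne_le_FOneP M p))

variable {L} in
/-- **H-FF** for the level `Γ₁(M) ∩ Γ₀(p)` over `L`, from the `L`-form of the algebraicity of
the Fricke functions. -/
theorem functionFieldOnePL_of_fricke (hbase : BaseFunctionFieldL L) (M p : ℕ) [NeZero M]
    [NeZero p] (h : FrickeAlgebraicL L M) :
    IsFunctionFieldOver L (laurentBaseChange L (FOneP M p)) (jOnePL L M p) := by
  haveI : Finite (⇑(coeffEmb L) '' frickeSet M ∪ ⇑(coeffEmbPL L p) '' genOne M :
      Set (LaurentSeries L)) :=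
    (((finite_frickeSet M).image _).union ((finite_genOne M).image _)).to_subtype
  have hB : ∀ b ∈ (⇑(coeffEmb L) '' frickeSet M ∪ ⇑(coeffEmbPL L p) '' genOne M :
      Set (LaurentSeries L)),
      IsIntegral (laurentBaseChange L (modularFunctionFieldFull M)) b := by
    rintro _ (⟨x, ⟨a, ha, rfl⟩, rfl⟩ | ⟨x, hx, rfl⟩)
    · exact (h a ha).isIntegral
    · exact isIntegral_coeffEmbPL_gen hbase M p h hx
  exact isFunctionFieldOver_of_adjoin_finite (laurentBaseChange L (modularFunctionFieldFull M))
    (laurentBaseChange L (FOneP M p)) (fullL_le_fonePL L M p) (coeffEmb L jq)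
    (coeffEmb_jq_mem_fullL L M)
    (coeffEmb_mem_laurentBaseChange L (FOne_le_FOneP M p (jq_mem_FOne M)))
    (hbase M) _ hB (fonePL_le L M p)

variable {L} in
/-- **H-FF** for the level `Γ₁(M) ∩ Γ₀(p)` over `L`. -/
theorem functionFieldOnePL_of (hbase : BaseFunctionFieldL L) (M p : ℕ) [NeZero M] [NeZero p]
    (h : FrickeAlgebraicOne M) :
    IsFunctionFieldOver L (laurentBaseChange L (FOneP M p)) (jOnePL L M p) :=
  functionFieldOnePL_of_fricke hbase M p (frickeAlgebraicL_of L M h)

end Generic

/-! ### `L = ℂ` -/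

/-- the base over `ℂ`: `ℂ F₀(N)` is a function field in one variable (dictionary of `X₀(N)`). -/
theorem baseFunctionFieldC : BaseFunctionFieldL ℂ := fun N _ =>
  Fermat.Agent.F3Dict.isFunctionFieldOver_jBar N

/-- **H-FF over `ℂ`**: `ℂ F₁(M)` is a function field in one variable, witnessed by `j`. -/
theorem functionFieldOneC_of (M : ℕ) [NeZero M] (h : FrickeAlgebraicOne M) :
    IsFunctionFieldOver ℂ (laurentBaseChange ℂ (FOne M)) (jOneL ℂ M) :=
  functionFieldOneL_of baseFunctionFieldC M h

/-- **H-FF over `ℂ`** for the level `Γ₁(M) ∩ Γ₀(p)`. -/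
theorem functionFieldOnePC_of (M p : ℕ) [NeZero M] [NeZero p] (h : FrickeAlgebraicOne M) :
    IsFunctionFieldOver ℂ (laurentBaseChange ℂ (FOneP M p)) (jOnePL ℂ M p) :=
  functionFieldOnePL_of baseFunctionFieldC M p h

end Fermat.Agent.S48W
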