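/-
S48 wall (W), block H (owner helper93): UNCONDITIONAL results of block H, after hub A1
(helper70, helper41, helper15, helper53, helper57, helper61, helper23, helper33).

* `frickeAlgebraicOne M`, `frickeAlgebraicBarOne M`  (A1d);
* `diamondComplexOne M`, `diamondExistsOne M`        (the diamond automorphisms exist);
* `heckeGaloisCommOne_top M`                         (IF-H1).
-/
import Mathlib
import Fermat.Agent.S48.W.A1.Wire
import Fermat.Agent.S48.W.A1.XExp
import Fermat.Agent.S48.W.H.Diamond
import Fermat.Agent.S48.W.H.GaloisComm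

set_option autoImplicit false

noncomputable section

namespace Fermat.Agent.S48W

/-- **(A1d)** the Fricke functions are algebraic over the function field of `X₀(M)`. -/
theorem frickeAlgebraicOne (M : ℕ) [NeZero M] : FrickeAlgebraicOne M :=
  Fermat.Agent.S48WA1.a1_frickeAlgebraicOne_of Fermat.Agent.S48WA1.xExp M

/-- **(A1d)**, `ℚ̄`-form. -/
theorem frickeAlgebraicBarOne (M : ℕ) [NeZero M] : FrickeAlgebraicBarOne M :=
  Fermat.Agent.S48WA1.a1_frickeAlgebraicBarOne_of Fermat.Agent.S48WA1.xExp M

/-- **(A1b)** the diamond substitution over `ℂ`. -/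
theorem diamondComplexOne (M : ℕ) [NeZero M] : DiamondComplexOne M :=
  Fermat.Agent.S48WA1.a1_diamondComplexOne_of Fermat.Agent.S48WA1.xExp M

/-- **(H-DIAM)** the diamond automorphisms of `ℚ̄ F₁(M)` exist. -/
theorem diamondExistsOne (M : ℕ) [NeZero M] : DiamondExistsOne M :=
  diamondExistsOne_of M (diamondComplexOne M)

/-- **(IF-H1)** the Hecke and diamond operators commute with the Galois action. -/
theorem heckeGaloisCommOne_top (M : ℕ) [NeZero M] : HeckeGaloisCommOne M :=
  Fermat.Agent.S48WH.heckeGaloisCommOne (M := M)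

end Fermat.Agent.S48W
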