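/-
S48 wall (W), block H (owner helper93): **BLOCK H IS CLOSED**.  All results are unconditional.

* `functionFieldOne M`, `functionFieldOneP M p` : the function fields (helper49, H-FF);
* `heckeInputsOne M p`   : the inputs of the correspondence `T_p` on `J₁(M)` (helper58, H-INP);
* `diamondExistsOne M`   : the diamond automorphisms (helper83, helper53; `H/Final.lean`);
* `heckeGaloisCommOne_top M` : IF-H1 (helper22; `H/Final.lean`).
-/
import Mathlib
import Fermat.Agent.S48.W.H.Final
import Fermat.Agent.S48.W.H.FF
import Fermat.Agent.S48.W.H.Inputs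

set_option autoImplicit false

noncomputable section

namespace Fermat.Agent.S48W

/-- **(H-FF)** `ℚ̄ F₁(M)` is a function field in one variable. -/
theorem functionFieldOne (M : ℕ) [NeZero M] : FunctionFieldOne M :=
  functionFieldOne_of_bar M (frickeAlgebraicBarOne M)

/-- **(H-FF)** `ℚ̄ F(Γ₁(M) ∩ Γ₀(p))` is a function field in one variable. -/
theorem functionFieldOneP (M p : ℕ) [NeZero M] [NeZero p] : FunctionFieldOneP M p :=
  functionFieldOneP_of_bar M p (frickeAlgebraicBarOne M)

/-- **(H-INP)** the inputs of the Hecke correspondence `T_p` on `J₁(M)`. -/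
theorem heckeInputsOne (M p : ℕ) [NeZero M] [NeZero p] : HeckeInputsOne M p :=
  heckeInputsOne_of M p (functionFieldOne M) (functionFieldOneP M p)

/-- `T_p` on `J₁(M)` is the correspondence `α_* β^*` (the inputs hold). -/
theorem heckeInputsOne_primes (M : ℕ) [NeZero M] (p : Nat.Primes) :
    haveI : NeZero (p : ℕ) := ⟨p.2.ne_zero⟩
    HeckeInputsOne M p :=
  haveI : NeZero (p : ℕ) := ⟨p.2.ne_zero⟩
  heckeInputsOne M p

end Fermat.Agent.S48W
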